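import Mathlib

set_option autoImplicit false

namespace Fermat.Agent.S22Lib

open Complex Filter Topology Function

/-- On the upper half plane, `E` is a holomorphic function of `q = exp (2πiz/h)` vanishing at
`q = 0`. -/
def IsCuspExp (h : ℝ) (E : ℂ → ℂ) : Prop :=
  ∃ Φ : ℂ → ℂ, DifferentiableOn ℂ Φ (Metric.ball 0 1) ∧ Φ 0 = 0 ∧
    ∀ z : ℂ, 0 < z.im → E z = Φ (Periodic.qParam h z)

/-- `H` tends to zero along every vertical line. -/
def VanishesUp (H : ℂ → ℂ) : Prop :=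
  ∀ x : ℝ, Tendsto (fun t : ℝ => H (x + t * I)) atTop (𝓝 0)

theorem hasDerivAt_qParam (h : ℝ) (z : ℂ) :
    HasDerivAt (Periodic.qParam h) (2 * Real.pi * I / h * Periodic.qParam h z) z := by
  unfold Periodic.qParam
  have := ((hasDerivAt_id z).const_mul (2 * Real.pi * I)).div_const (h:ℂ)
  have h2 := this.cexp
  simp only [id, mul_one] at h2
  exact h2.congr_deriv (mul_comm _ _)

theorem IsCuspExp.congr {h : ℝ} {E E' : ℂ → ℂ} (hE : IsCuspExp h E)
    (hEE : ∀ z : ℂ, 0 < z.im → E' z = E z) : IsCuspExp h E' := by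
  obtain ⟨Φ, h1, h2, h3⟩ := hE
  exact ⟨Φ, h1, h2, fun z hz => by rw [hEE z hz, h3 z hz]⟩

theorem IsCuspExp.add {h : ℝ} {E E' : ℂ → ℂ} (hE : IsCuspExp h E) (hE' : IsCuspExp h E') :
    IsCuspExp h (E + E') := by
  obtain ⟨Φ, h1, h2, h3⟩ := hE
  obtain ⟨Φ', h1', h2', h3'⟩ := hE'
  exact ⟨Φ + Φ', h1.add h1', by simp [h2, h2'], fun z hz => by simp [h3 z hz, h3' z hz]⟩

theorem IsCuspExp.smul {h : ℝ} {E : ℂ → ℂ} (c : ℂ) (hE : IsCuspExp h E) :
    IsCuspExp h (c • E) := by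
  obtain ⟨Φ, h1, h2, h3⟩ := hE
  exact ⟨c • Φ, h1.const_smul c, by simp [h2], fun z hz => by simp [h3 z hz]⟩

theorem IsCuspExp.zero (h : ℝ) : IsCuspExp h 0 :=
  ⟨0, differentiableOn_const 0, rfl, fun _ _ => rfl⟩

theorem IsCuspExp.exists_primitive {h : ℝ} (hh : 0 < h) {E : ℂ → ℂ} (hE : IsCuspExp h E) :
    ∃ E₁ : ℂ → ℂ, IsCuspExp h E₁ ∧ ∀ z : ℂ, 0 < z.im → HasDerivAt E₁ (E z) z := by
  obtain ⟨Φ, h1, h2, h3⟩ := hE
  have hball : Metric.ball (0:ℂ) 1 ∈ 𝓝 (0:ℂ) := Metric.ball_mem_nhds 0 one_pos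
  have hΨ : DifferentiableOn ℂ (dslope Φ 0) (Metric.ball 0 1) :=
    (Complex.differentiableOn_dslope hball).mpr h1
  obtain ⟨G, hG0, hG⟩ := (hΨ.isExactOn_ball).with_val_at 0 0
  have hpi : (2 * Real.pi * I / h : ℂ) ≠ 0 := by
    have : (h : ℂ) ≠ 0 := by exact_mod_cast hh.ne'
    have h2 : (Real.pi : ℂ) ≠ 0 := by exact_mod_cast Real.pi_ne_zero
    simp [this, h2, I_ne_zero]
  refine ⟨fun z => (2 * Real.pi * I / h : ℂ)⁻¹ * G (Periodic.qParam h z),
    ⟨fun q => (2 * Real.pi * I / h : ℂ)⁻¹ * G q, ?_, by simp [hG0], fun z _ => rfl⟩, ?_⟩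
  · exact fun q hq => ((hG q hq).differentiableAt.differentiableWithinAt).const_mul _
  · intro z hz
    have hq : Periodic.qParam h z ∈ Metric.ball (0:ℂ) 1 := by
      simpa using Periodic.norm_qParam_lt_one hh hz
    have hd := ((hG _ hq).comp z (hasDerivAt_qParam h z)).const_mul (2 * Real.pi * I / h : ℂ)⁻¹
    refine hd.congr_deriv ?_
    have hs := sub_smul_dslope Φ 0 (Periodic.qParam h z)
    rw [h2, sub_zero, sub_zero, smul_eq_mul] at hs
    rw [h3 z hz, ← hs]
    generalize (2 * Real.pi * I / h : ℂ) = c at hpi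
    field_simp

theorem IsCuspExp.differentiableAt {h : ℝ} (hh : 0 < h) {E : ℂ → ℂ} (hE : IsCuspExp h E)
    {z : ℂ} (hz : 0 < z.im) : DifferentiableAt ℂ E z := by
  obtain ⟨Φ, h1, h2, h3⟩ := hE
  have hq : Periodic.qParam h z ∈ Metric.ball (0:ℂ) 1 := by
    simpa using Periodic.norm_qParam_lt_one hh hz
  have hd : DifferentiableAt ℂ (Φ ∘ Periodic.qParam h) z :=
    ((h1 _ hq).differentiableAt (Metric.isOpen_ball.mem_nhds hq)).comp z
      (hasDerivAt_qParam h z).differentiableAt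
  refine hd.congr_of_eventuallyEq ?_
  have hopen : IsOpen {z : ℂ | 0 < z.im} := isOpen_lt continuous_const Complex.continuous_im
  filter_upwards [hopen.mem_nhds hz] with u hu using h3 u hu

theorem IsCuspExp.norm_le {h : ℝ} (hh : 0 < h) {E : ℂ → ℂ} (hE : IsCuspExp h E) :
    ∃ C : ℝ, ∀ z : ℂ, 1 ≤ z.im → ‖E z‖ ≤ C * Real.exp (-2 * Real.pi * z.im / h) := by
  obtain ⟨Φ, h1, h2, h3⟩ := hE
  have hball : Metric.ball (0:ℂ) 1 ∈ 𝓝 (0:ℂ) := Metric.ball_mem_nhds 0 one_pos
  have hΨ : DifferentiableOn ℂ (dslope Φ 0) (Metric.ball 0 1) :=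
    (Complex.differentiableOn_dslope hball).mpr h1
  set r : ℝ := Real.exp (-2 * Real.pi * 1 / h) with hr
  have hr1 : r < 1 := by
    rw [hr, Real.exp_lt_one_iff]
    have : 0 < 2 * Real.pi * 1 / h := by positivity
    have h' : -2 * Real.pi * 1 / h = -(2 * Real.pi * 1 / h) := by ring
    rw [h']; linarith
  have hsub : Metric.closedBall (0:ℂ) r ⊆ Metric.ball 0 1 := Metric.closedBall_subset_ball hr1
  obtain ⟨C, hC⟩ := (isCompact_closedBall (0:ℂ) r).exists_bound_of_continuousOn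
    (hΨ.continuousOn.mono hsub)
  refine ⟨C, fun z hz => ?_⟩
  have hz0 : 0 < z.im := by linarith
  have hqn := Periodic.norm_qParam h z
  have hq : Periodic.qParam h z ∈ Metric.closedBall (0:ℂ) r := by
    rw [mem_closedBall_zero_iff, hqn, hr]
    apply Real.exp_le_exp.mpr
    have : 2 * Real.pi * 1 / h ≤ 2 * Real.pi * z.im / h := by gcongr
    have e1 : -2 * Real.pi * 1 / h = -(2 * Real.pi * 1 / h) := by ring
    have e2 : -2 * Real.pi * z.im / h = -(2 * Real.pi * z.im / h) := by ring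
    rw [e1, e2]; linarith
  have hs := sub_smul_dslope Φ 0 (Periodic.qParam h z)
  rw [h2, sub_zero, sub_zero, smul_eq_mul] at hs
  rw [h3 z hz0, ← hs, norm_mul, hqn, mul_comm]
  exact mul_le_mul_of_nonneg_right (hC _ hq) (Real.exp_pos _).le

theorem tendsto_pow_mul_exp_neg_mul (n : ℕ) {c : ℝ} (hc : 0 < c) :
    Tendsto (fun t : ℝ => t ^ n * Real.exp (-(c * t))) atTop (𝓝 0) := by
  have h1 := (Real.tendsto_pow_mul_exp_neg_atTop_nhds_zero n).comp
    (tendsto_id.const_mul_atTop hc)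
  have h2 := h1.const_mul ((c ^ n)⁻¹)
  rw [mul_zero] at h2
  refine h2.congr fun t => ?_
  simp only [Function.comp, id, mul_pow]
  have : c ^ n ≠ 0 := pow_ne_zero _ hc.ne'
  field_simp

theorem IsCuspExp.vanishesUp_affine_pow_mul {h : ℝ} (hh : 0 < h) {E : ℂ → ℂ}
    (hE : IsCuspExp h E) (a b : ℂ) (n : ℕ) : VanishesUp (fun z => (a + b * z) ^ n * E z) := by
  intro x
  obtain ⟨C, hC⟩ := hE.norm_le hh
  set K : ℝ := ‖a‖ + ‖b‖ * (|x| + 1) with hK
  have hK0 : 0 ≤ K := by positivity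
  have hc : 0 < 2 * Real.pi / h := by positivity
  have hlim := (tendsto_pow_mul_exp_neg_mul n hc).const_mul (K ^ n * |C|)
  rw [mul_zero] at hlim
  refine squeeze_zero_norm' ?_ hlim
  filter_upwards [eventually_ge_atTop (1:ℝ)] with t ht
  have him : ((x:ℂ) + t * I).im = t := by simp
  have hz1 : ‖(x:ℂ) + t * I‖ ≤ (|x| + 1) * t := by
    calc ‖(x:ℂ) + t * I‖ ≤ ‖(x:ℂ)‖ + ‖(t:ℂ) * I‖ := norm_add_le _ _
      _ = |x| + |t| := by simp
      _ = |x| * 1 + t := by rw [abs_of_nonneg (by linarith : (0:ℝ) ≤ t), mul_one]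
      _ ≤ |x| * t + t := by gcongr
      _ = (|x| + 1) * t := by ring
  have h1 : ‖a + b * ((x:ℂ) + t * I)‖ ≤ K * t := by
    calc ‖a + b * ((x:ℂ) + t * I)‖ ≤ ‖a‖ + ‖b‖ * ‖(x:ℂ) + t * I‖ := by
          refine (norm_add_le _ _).trans ?_
          rw [norm_mul]
      _ ≤ ‖a‖ * t + ‖b‖ * ((|x| + 1) * t) := by
          gcongr
          exact le_mul_of_one_le_right (norm_nonneg _) ht
      _ = K * t := by rw [hK]; ring
  have h2 := hC ((x:ℂ) + t * I) (by rw [him]; exact ht)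
  rw [him] at h2
  have h3 : C * Real.exp (-2 * Real.pi * t / h) ≤ |C| * Real.exp (-(2 * Real.pi / h * t)) := by
    have e : -2 * Real.pi * t / h = -(2 * Real.pi / h * t) := by ring
    rw [e]
    exact mul_le_mul_of_nonneg_right (le_abs_self C) (Real.exp_pos _).le
  calc ‖(a + b * ((x:ℂ) + t * I)) ^ n * E ((x:ℂ) + t * I)‖
      = ‖a + b * ((x:ℂ) + t * I)‖ ^ n * ‖E ((x:ℂ) + t * I)‖ := by rw [norm_mul, norm_pow]
    _ ≤ (K * t) ^ n * (|C| * Real.exp (-(2 * Real.pi / h * t))) := by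
        gcongr
        exact h2.trans h3
    _ = K ^ n * |C| * (t ^ n * Real.exp (-(2 * Real.pi / h * t))) := by rw [mul_pow]; ring

theorem IsCuspExp.vanishesUp {h : ℝ} (hh : 0 < h) {E : ℂ → ℂ} (hE : IsCuspExp h E) :
    VanishesUp E := by
  have := hE.vanishesUp_affine_pow_mul hh 0 0 0
  simpa using this

theorem VanishesUp.add {H₁ H₂ : ℂ → ℂ} (h₁ : VanishesUp H₁) (h₂ : VanishesUp H₂) :
    VanishesUp (fun z => H₁ z + H₂ z) := fun x => by
  simpa using (h₁ x).add (h₂ x)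

theorem VanishesUp.neg {H : ℂ → ℂ} (h₁ : VanishesUp H) : VanishesUp (fun z => - H z) :=
  fun x => by simpa using (h₁ x).neg

theorem VanishesUp.const_mul {H : ℂ → ℂ} (c : ℂ) (h₁ : VanishesUp H) :
    VanishesUp (fun z => c * H z) := fun x => by simpa using (h₁ x).const_mul c

theorem VanishesUp.sum {ι : Type*} (s : Finset ι) {H : ι → ℂ → ℂ}
    (h : ∀ i ∈ s, VanishesUp (H i)) : VanishesUp (fun z => ∑ i ∈ s, H i z) := fun x => by
  simpa using tendsto_finsetSum s (fun i hi => h i hi x)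

theorem isOpen_upper : IsOpen {z : ℂ | 0 < z.im} :=
  isOpen_lt continuous_const Complex.continuous_im

theorem isPreconnected_upper : IsPreconnected {z : ℂ | 0 < z.im} :=
  (convex_halfSpace_im_gt 0).isPreconnected

/-- A function with zero derivative on the upper half plane is constant there. -/
theorem const_of_hasDerivAt_zero {D : ℂ → ℂ} (hD : ∀ z : ℂ, 0 < z.im → HasDerivAt D 0 z)
    {z z' : ℂ} (hz : 0 < z.im) (hz' : 0 < z'.im) : D z = D z' :=
  isOpen_upper.is_const_of_deriv_eq_zero isPreconnected_upper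
    (fun u hu => (hD u hu).differentiableAt.differentiableWithinAt)
    (fun u hu => (hD u hu).deriv) hz hz'

/-- Uniqueness of primitives vanishing along vertical lines. -/
theorem eq_of_hasDerivAt_of_vanishesUp {H₁ H₂ g : ℂ → ℂ}
    (h₁ : ∀ z : ℂ, 0 < z.im → HasDerivAt H₁ (g z) z)
    (h₂ : ∀ z : ℂ, 0 < z.im → HasDerivAt H₂ (g z) z)
    (v₁ : VanishesUp H₁) (v₂ : VanishesUp H₂) {z : ℂ} (hz : 0 < z.im) : H₁ z = H₂ z := by
  have hD : ∀ u : ℂ, 0 < u.im → HasDerivAt (fun u => H₁ u - H₂ u) 0 u := fun u hu =>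
    ((h₁ u hu).sub (h₂ u hu)).congr_deriv (sub_self _)
  have hlim : Tendsto (fun t : ℝ => H₁ ((0:ℝ) + t * I) - H₂ ((0:ℝ) + t * I)) atTop (𝓝 0) := by
    simpa using (v₁ 0).sub (v₂ 0)
  have hconst : Tendsto (fun t : ℝ => H₁ ((0:ℝ) + t * I) - H₂ ((0:ℝ) + t * I)) atTop
      (𝓝 (H₁ z - H₂ z)) := by
    refine tendsto_const_nhds.congr' ?_
    filter_upwards [eventually_gt_atTop (0:ℝ)] with t ht
    exact const_of_hasDerivAt_zero hD hz (by simpa using ht)
  exact sub_eq_zero.mp (tendsto_nhds_unique hconst hlim)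

open Classical in
/-- A chosen primitive (in the class `IsCuspExp h`). -/
noncomputable def prim (h : ℝ) (E : ℂ → ℂ) : ℂ → ℂ :=
  if hE : 0 < h ∧ IsCuspExp h E then Classical.choose (hE.2.exists_primitive hE.1) else 0

theorem prim_isCuspExp {h : ℝ} (hh : 0 < h) {E : ℂ → ℂ} (hE : IsCuspExp h E) :
    IsCuspExp h (prim h E) := by
  rw [prim, dif_pos ⟨hh, hE⟩]
  exact (Classical.choose_spec (hE.exists_primitive hh)).1

theorem prim_hasDerivAt {h : ℝ} (hh : 0 < h) {E : ℂ → ℂ} (hE : IsCuspExp h E) {z : ℂ}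
    (hz : 0 < z.im) : HasDerivAt (prim h E) (E z) z := by
  rw [prim, dif_pos ⟨hh, hE⟩]
  exact (Classical.choose_spec (hE.exists_primitive hh)).2 z hz

/-- Iterated primitives `E_m` of `f`: `E_0 = f`, `E_{m+1}' = E_m`, all in `IsCuspExp h`. -/
noncomputable def iterPrim (h : ℝ) (f : ℂ → ℂ) : ℕ → ℂ → ℂ
  | 0 => f
  | m + 1 => prim h (iterPrim h f m)

@[simp] theorem iterPrim_zero (h : ℝ) (f : ℂ → ℂ) : iterPrim h f 0 = f := rfl

theorem iterPrim_succ (h : ℝ) (f : ℂ → ℂ) (m : ℕ) :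
    iterPrim h f (m + 1) = prim h (iterPrim h f m) := rfl

theorem iterPrim_isCuspExp {h : ℝ} (hh : 0 < h) {f : ℂ → ℂ} (hf : IsCuspExp h f) (m : ℕ) :
    IsCuspExp h (iterPrim h f m) := by
  induction m with
  | zero => exact hf
  | succ m ih => exact prim_isCuspExp hh ih

theorem iterPrim_hasDerivAt {h : ℝ} (hh : 0 < h) {f : ℂ → ℂ} (hf : IsCuspExp h f) (m : ℕ)
    {z : ℂ} (hz : 0 < z.im) : HasDerivAt (iterPrim h f (m + 1)) (iterPrim h f m z) z :=
  prim_hasDerivAt hh (iterPrim_isCuspExp hh hf m) hz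

theorem iterPrim_congr {h : ℝ} (hh : 0 < h) {f g : ℂ → ℂ} (hf : IsCuspExp h f)
    (hfg : ∀ z : ℂ, 0 < z.im → g z = f z) (m : ℕ) {z : ℂ} (hz : 0 < z.im) :
    iterPrim h g m z = iterPrim h f m z := by
  have hg : IsCuspExp h g := hf.congr hfg
  induction m generalizing z with
  | zero => exact hfg z hz
  | succ m ih =>
    refine eq_of_hasDerivAt_of_vanishesUp (g := iterPrim h f m)
      (fun u hu => ?_) (fun u hu => iterPrim_hasDerivAt hh hf m hu)
      ((iterPrim_isCuspExp hh hg _).vanishesUp hh) ((iterPrim_isCuspExp hh hf _).vanishesUp hh) hz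
    rw [← ih hu]
    exact iterPrim_hasDerivAt hh hg m hu

theorem iterPrim_add {h : ℝ} (hh : 0 < h) {f g : ℂ → ℂ} (hf : IsCuspExp h f)
    (hg : IsCuspExp h g) (m : ℕ) {z : ℂ} (hz : 0 < z.im) :
    iterPrim h (f + g) m z = iterPrim h f m z + iterPrim h g m z := by
  have hfg : IsCuspExp h (f + g) := hf.add hg
  induction m generalizing z with
  | zero => rfl
  | succ m ih =>
    refine eq_of_hasDerivAt_of_vanishesUp (g := fun z => iterPrim h f m z + iterPrim h g m z)
      (H₂ := fun z => iterPrim h f (m + 1) z + iterPrim h g (m + 1) z)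
      (fun u hu => ?_)
      (fun u hu => (iterPrim_hasDerivAt hh hf m hu).add (iterPrim_hasDerivAt hh hg m hu))
      ((iterPrim_isCuspExp hh hfg _).vanishesUp hh)
      (((iterPrim_isCuspExp hh hf _).vanishesUp hh).add
        ((iterPrim_isCuspExp hh hg _).vanishesUp hh)) hz
    rw [← ih hu]
    exact iterPrim_hasDerivAt hh hfg m hu

theorem iterPrim_smul {h : ℝ} (hh : 0 < h) {f : ℂ → ℂ} (hf : IsCuspExp h f) (c : ℂ)
    (m : ℕ) {z : ℂ} (hz : 0 < z.im) :
    iterPrim h (c • f) m z = c * iterPrim h f m z := by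
  have hcf : IsCuspExp h (c • f) := hf.smul c
  induction m generalizing z with
  | zero => rfl
  | succ m ih =>
    refine eq_of_hasDerivAt_of_vanishesUp (g := fun z => c * iterPrim h f m z)
      (H₂ := fun z => c * iterPrim h f (m + 1) z)
      (fun u hu => ?_)
      (fun u hu => (iterPrim_hasDerivAt hh hf m hu).const_mul c)
      ((iterPrim_isCuspExp hh hcf _).vanishesUp hh)
      (((iterPrim_isCuspExp hh hf _).vanishesUp hh).const_mul c) hz
    rw [← ih hu]
    exact iterPrim_hasDerivAt hh hcf m hu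

/-- If an iterated primitive vanishes identically on the upper half plane, so does `f`. -/
theorem eq_zero_of_iterPrim_eq_zero {h : ℝ} (hh : 0 < h) {f : ℂ → ℂ} (hf : IsCuspExp h f)
    (m : ℕ) (h0 : ∀ z : ℂ, 0 < z.im → iterPrim h f m z = 0) {z : ℂ} (hz : 0 < z.im) :
    f z = 0 := by
  induction m generalizing z with
  | zero => exact h0 z hz
  | succ m ih =>
    refine ih (fun u hu => ?_) hz
    have h1 := iterPrim_hasDerivAt hh hf m hu
    have h2 : HasDerivAt (iterPrim h f (m + 1)) 0 u := by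
      refine (hasDerivAt_const u (0:ℂ)).congr_of_eventuallyEq ?_
      filter_upwards [isOpen_upper.mem_nhds hu] with v hv using h0 v hv
    exact h1.unique h2

/-- The Eichler integral `-∫_z^{i∞} f(u) (x - y u)^w du` (as a primitive vanishing at `i∞`). -/
noncomputable def eich (h : ℝ) (w : ℕ) (f : ℂ → ℂ) (x y z : ℂ) : ℂ :=
  - ∑ m ∈ Finset.range (w + 1),
      (w.descFactorial m : ℂ) * y ^ m * (x - y * z) ^ (w - m) * iterPrim h f (m + 1) z

theorem eich_hasDerivAt {h : ℝ} (hh : 0 < h) {f : ℂ → ℂ} (hf : IsCuspExp h f) (w : ℕ)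
    (x y : ℂ) {z : ℂ} (hz : 0 < z.im) :
    HasDerivAt (fun z => eich h w f x y z) (-(f z * (x - y * z) ^ w)) z := by
  unfold eich
  set A : ℕ → ℂ := fun m =>
    (w.descFactorial m : ℂ) * y ^ m * (x - y * z) ^ (w - m) * iterPrim h f m z with hA
  have hterm : ∀ m ∈ Finset.range (w + 1), HasDerivAt (fun z =>
      (w.descFactorial m : ℂ) * y ^ m * (x - y * z) ^ (w - m) * iterPrim h f (m + 1) z)
      (A m - A (m + 1)) z := by
    intro m hm
    have hlin : HasDerivAt (fun z => x - y * z) (-y) z := by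
      simpa using ((hasDerivAt_id z).const_mul y).const_sub x
    have hpow := hlin.fun_pow (w - m)
    have hprod := ((hpow.const_mul ((w.descFactorial m : ℂ) * y ^ m)).mul
      (iterPrim_hasDerivAt hh hf m hz))
    refine hprod.congr_deriv ?_
    simp only [hA, Nat.descFactorial_succ, Nat.cast_mul]
    have e : w - (m + 1) = w - m - 1 := by omega
    rw [e]
    ring
  have hsum := HasDerivAt.fun_sum hterm
  rw [Finset.sum_range_sub'] at hsum
  refine hsum.neg.congr_deriv ?_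
  simp [hA]
  ring

theorem eich_vanishesUp {h : ℝ} (hh : 0 < h) {f : ℂ → ℂ} (hf : IsCuspExp h f) (w : ℕ)
    (x y : ℂ) : VanishesUp (fun z => eich h w f x y z) := by
  unfold eich
  refine VanishesUp.neg (VanishesUp.sum _ fun m _ => ?_)
  have h1 := ((iterPrim_isCuspExp hh hf (m + 1)).vanishesUp_affine_pow_mul hh x (-y)
    (w - m)).const_mul ((w.descFactorial m : ℂ) * y ^ m)
  intro x'
  refine (h1 x').congr fun t => ?_
  ring

theorem eich_diag (h : ℝ) (w : ℕ) (f : ℂ → ℂ) (z : ℂ) :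
    eich h w f z 1 z = -((w.factorial : ℂ) * iterPrim h f (w + 1) z) := by
  unfold eich
  rw [Finset.sum_eq_single w]
  · simp [Nat.descFactorial_self]
  · intro m hm hmw
    have : w - m ≠ 0 := by
      have := Finset.mem_range.mp hm
      omega
    simp [this]
  · intro hw
    exact absurd (Finset.mem_range.mpr (Nat.lt_succ_self w)) hw

theorem eich_homog (h : ℝ) (w : ℕ) (f : ℂ → ℂ) (c x y z : ℂ) :
    eich h w f (c * x) (c * y) z = c ^ w * eich h w f x y z := by
  unfold eich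
  rw [mul_neg, Finset.mul_sum]
  congr 1
  refine Finset.sum_congr rfl fun m hm => ?_
  have hm' : m ≤ w := Nat.lt_succ_iff.mp (Finset.mem_range.mp hm)
  have e : c ^ w = c ^ m * c ^ (w - m) := by rw [← pow_add, Nat.add_sub_cancel' hm']
  have e2 : c * x - c * y * z = c * (x - y * z) := by ring
  rw [e, e2, mul_pow, mul_pow]
  ring

theorem eich_add {h : ℝ} (hh : 0 < h) {f g : ℂ → ℂ} (hf : IsCuspExp h f) (hg : IsCuspExp h g)
    (w : ℕ) (x y : ℂ) {z : ℂ} (hz : 0 < z.im) :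
    eich h w (f + g) x y z = eich h w f x y z + eich h w g x y z := by
  unfold eich
  rw [← neg_add, ← Finset.sum_add_distrib]
  congr 1
  refine Finset.sum_congr rfl fun m _ => ?_
  rw [iterPrim_add hh hf hg _ hz]
  ring

theorem eich_smul {h : ℝ} (hh : 0 < h) {f : ℂ → ℂ} (hf : IsCuspExp h f) (c : ℂ)
    (w : ℕ) (x y : ℂ) {z : ℂ} (hz : 0 < z.im) :
    eich h w (c • f) x y z = c * eich h w f x y z := by
  unfold eich
  rw [mul_neg, Finset.mul_sum]
  congr 1
  refine Finset.sum_congr rfl fun m _ => ?_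
  rw [iterPrim_smul hh hf c _ hz]
  ring

theorem eich_congr {h : ℝ} (hh : 0 < h) {f g : ℂ → ℂ} (hf : IsCuspExp h f)
    (hfg : ∀ z : ℂ, 0 < z.im → g z = f z) (w : ℕ) (x y : ℂ) {z : ℂ} (hz : 0 < z.im) :
    eich h w g x y z = eich h w f x y z := by
  unfold eich
  congr 1
  refine Finset.sum_congr rfl fun m _ => ?_
  rw [iterPrim_congr hh hf hfg _ hz]

/-- `x ↦ eich (a x + b, c x + d; z)` is a polynomial function. -/
theorem eich_polynomial (h : ℝ) (w : ℕ) (f : ℂ → ℂ) (a b c d z : ℂ) :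
    ∃ P : Polynomial ℂ, ∀ x : ℂ, P.eval x = eich h w f (a * x + b) (c * x + d) z := by
  refine ⟨- ∑ m ∈ Finset.range (w + 1),
      Polynomial.C (w.descFactorial m : ℂ) * (Polynomial.C c * Polynomial.X + Polynomial.C d) ^ m *
        ((Polynomial.C a * Polynomial.X + Polynomial.C b) -
          (Polynomial.C c * Polynomial.X + Polynomial.C d) * Polynomial.C z) ^ (w - m) *
        Polynomial.C (iterPrim h f (m + 1) z), fun x => ?_⟩
  unfold eich
  simp [Polynomial.eval_finsetSum]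

/-- For integers `x, y` the value `eich (x, y; z)` is an integer combination, with coefficients
independent of `f` and `z`, of the numbers `z ^ i * E_{m+1}(z)`, `i, m ≤ w`. -/
theorem eich_int_combination (w : ℕ) (x y : ℤ) :
    ∃ n : ℕ → ℕ → ℤ, ∀ (h : ℝ) (f : ℂ → ℂ) (z : ℂ), eich h w f x y z =
      ∑ m ∈ Finset.range (w + 1), ∑ i ∈ Finset.range (w + 1),
        (n m i : ℂ) * (z ^ i * iterPrim h f (m + 1) z) := by
  refine ⟨fun m i => if i ≤ w - m then
    -((w.descFactorial m : ℤ) * y ^ m * ((-y) ^ i * x ^ (w - m - i) * ((w - m).choose i : ℤ)))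
    else 0, fun h f z => ?_⟩
  unfold eich
  rw [← Finset.sum_neg_distrib]
  refine Finset.sum_congr rfl fun m hm => ?_
  have e : (x : ℂ) - y * z = (-(y:ℂ) * z) + x := by ring
  rw [e, add_pow]
  have hsub : Finset.range (w - m + 1) ⊆ Finset.range (w + 1) := by
    intro i hi
    simp only [Finset.mem_range] at hi ⊢
    omega
  rw [← Finset.sum_subset hsub]
  · rw [Finset.mul_sum, Finset.sum_mul, ← Finset.sum_neg_distrib]
    refine Finset.sum_congr rfl fun i hi => ?_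
    have hi' : i ≤ w - m := Nat.lt_succ_iff.mp (Finset.mem_range.mp hi)
    simp only [if_pos hi']
    push_cast
    rw [mul_pow]
    ring
  · intro i _ hi
    have hi' : ¬ i ≤ w - m := by
      simp only [Finset.mem_range] at hi
      omega
    simp only [if_neg hi']
    simp

end Fermat.Agent.S22Lib
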