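import Fermat.Prelude.Thm_ModularForm_heckeT_slash_eq_self_of_mem_Gamma0
import Fermat.Prelude.Thm_ModularForm_heckeU_slash_eq_self_of_mem_Gamma0
import Fermat.Prelude.Def_ModularForm_HeckeOperator

/-!
# S22, part P3: Hecke coset combinatorics

A finite family `α : ι → GL (Fin 2) ℝ` is a *Hecke family of level `N`* if every `α i` is an
upper triangular matrix with natural number entries and positive diagonal, and right
multiplication by any `g ∈ Γ₀(N)` permutes the cosets `Γ₀(N) α i`.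
-/

set_option autoImplicit false

open Matrix.SpecialLinearGroup UpperHalfPlane
open scoped MatrixGroups ModularForm

namespace Fermat.Agent.S22Lib

open P2MW.S_ModularForm_heckeT_slash_eq_self_of_mem_Gamma0.ModularForm.HeckeSlashInvariance

/-- Hecke family of level `N`. -/
structure IsHeckeFamily (N : ℕ) {ι : Type} [Fintype ι] (α : ι → GL (Fin 2) ℝ) : Prop where
  upper : ∀ i, ∃ a b d : ℕ, 0 < a ∧ 0 < d ∧
    ((α i : GL (Fin 2) ℝ) : Matrix (Fin 2) (Fin 2) ℝ) = !![(a : ℝ), (b : ℝ); 0, (d : ℝ)]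
  perm : ∀ g : SL(2, ℤ), g ∈ CongruenceSubgroup.Gamma0 N →
    ∃ (s : Equiv.Perm ι) (g' : ι → SL(2, ℤ)), (∀ i, g' i ∈ CongruenceSubgroup.Gamma0 N) ∧
      ∀ i, α i * mapGL ℝ g = mapGL ℝ (g' i) * α (s i)

/-- The family of the `p + 1` matrices defining `T_p`. -/
noncomputable def famT (p : ℕ) : OnePoint (ZMod p) → GL (Fin 2) ℝ := heckeRep p

/-- The family of the `p` matrices defining `U_p`. -/
noncomputable def famU (p : ℕ) : ZMod p → GL (Fin 2) ℝ := fun x => ModularForm.heckeMatrix p x.val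

theorem heckeT_eq_sum_famT {p : ℕ} [NeZero p] (k : ℤ) (f : ℍ → ℂ) :
    ModularForm.heckeT k p f = ∑ x : OnePoint (ZMod p), f ∣[k] famT p x :=
  heckeT_eq_sum_onePoint k f

theorem heckeU_eq_sum_famU {p : ℕ} [NeZero p] (k : ℤ) (f : ℍ → ℂ) :
    ModularForm.heckeU k p f = ∑ x : ZMod p, f ∣[k] famU p x :=
  heckeU_eq_sum_zmod k f

theorem isHeckeFamily_famT {N p : ℕ} [Fact p.Prime] (hpN : ¬ p ∣ N) :
    IsHeckeFamily N (famT p) where
  upper x := by
    have hp : p ≠ 0 := (Fact.out : p.Prime).ne_zero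
    induction x using OnePoint.rec with
    | infty =>
      refine ⟨p, 0, 1, Nat.pos_of_ne_zero hp, one_pos, ?_⟩
      show ((ModularForm.heckeDiagMatrix p : GL (Fin 2) ℝ) : Matrix (Fin 2) (Fin 2) ℝ) = _
      rw [ModularForm.val_heckeDiagMatrix hp]; simp
    | coe j =>
      refine ⟨1, j.val, p, one_pos, Nat.pos_of_ne_zero hp, ?_⟩
      show ((ModularForm.heckeMatrix p j.val : GL (Fin 2) ℝ) : Matrix (Fin 2) (Fin 2) ℝ) = _
      rw [ModularForm.val_heckeMatrix hp]; simp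
  perm g hg := by
    have hcN : (N : ℤ) ∣ g 1 0 :=
      (ZMod.intCast_zmod_eq_zero_iff_dvd _ _).mp (CongruenceSubgroup.Gamma0_mem.mp hg)
    choose g' hg' hmul using heckeRep_mul hpN g hcN
    exact ⟨MulAction.toPerm (redMatrix p g), g', fun x =>
      CongruenceSubgroup.Gamma0_mem.mpr ((ZMod.intCast_zmod_eq_zero_iff_dvd _ _).mpr (hg' x)), hmul⟩

theorem isHeckeFamily_famU {N p : ℕ} [NeZero p] (hpN : p ∣ N) :
    IsHeckeFamily N (famU p) where
  upper x := by
    have hp : p ≠ 0 := NeZero.ne p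
    refine ⟨1, x.val, p, one_pos, Nat.pos_of_ne_zero hp, ?_⟩
    show ((ModularForm.heckeMatrix p x.val : GL (Fin 2) ℝ) : Matrix (Fin 2) (Fin 2) ℝ) = _
    rw [ModularForm.val_heckeMatrix hp]; simp
  perm g hg := by
    have hcN : (N : ℤ) ∣ g 1 0 :=
      (ZMod.intCast_zmod_eq_zero_iff_dvd _ _).mp (CongruenceSubgroup.Gamma0_mem.mp hg)
    have hc : (p : ℤ) ∣ g 1 0 := (Int.natCast_dvd_natCast.mpr hpN).trans hcN
    choose g' hg' hmul using heckeMatrix_mul_of_dvd g hc
    refine ⟨affinePerm g ((ZMod.intCast_zmod_eq_zero_iff_dvd _ _).mpr hc), g', fun x => ?_, hmul⟩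
    rw [CongruenceSubgroup.Gamma0_mem, hg' x]
    push_cast
    rw [CongruenceSubgroup.Gamma0_mem.mp hg, mul_zero]

end Fermat.Agent.S22Lib
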