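import Fermat.Agent.S22.Analysis

set_option autoImplicit false

namespace Fermat.Agent.S22Lib

open Complex Filter Topology Function UpperHalfPlane ModularForm
open scoped MatrixGroups

/-- A cusp form with (strict) period `h` is in the class `IsCuspExp h`. -/
theorem isCuspExp_of_cuspFormClass {k : ℤ} {F : Type*} [FunLike F ℍ ℂ]
    {Γ : Subgroup (GL (Fin 2) ℝ)} {h : ℝ} (f : F) [CuspFormClass F Γ k] (hh : 0 < h)
    (hΓ : h ∈ Γ.strictPeriods) : IsCuspExp h ((f : ℍ → ℂ) ∘ ofComplex) := by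
  refine ⟨cuspFunction h f, fun q hq => ?_, CuspFormClass.cuspFunction_apply_zero f hh hΓ,
    fun z hz => ?_⟩
  · exact (ModularFormClass.differentiableAt_cuspFunction f hh hΓ
      (by simpa using hq)).differentiableWithinAt
  · have := SlashInvariantFormClass.eq_cuspFunction f ⟨z, hz⟩ hΓ hh.ne'
    rw [Function.comp_apply, ofComplex_apply_of_im_pos hz, ← this]

/-- The Möbius map attached to `g`, as a function on `ℂ`. -/
noncomputable def moeb (g : GL (Fin 2) ℝ) (z : ℂ) : ℂ := num g z / denom g z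

theorem moeb_coe {g : GL (Fin 2) ℝ} (hg : 0 < g.det.val) (τ : ℍ) :
    moeb g τ = ((g • τ : ℍ) : ℂ) := (coe_smul_of_det_pos hg τ).symm

theorem moeb_im_pos {g : GL (Fin 2) ℝ} (hg : 0 < g.det.val) {z : ℂ} (hz : 0 < z.im) :
    0 < (moeb g z).im := by
  have := moeb_coe hg ⟨z, hz⟩
  simp only at this
  rw [this]
  exact (g • (⟨z, hz⟩ : ℍ)).im_pos

theorem denom_ne_zero' (g : GL (Fin 2) ℝ) {z : ℂ} (hz : 0 < z.im) : denom g z ≠ 0 :=
  denom_ne_zero g ⟨z, hz⟩

theorem moeb_hasDerivAt (g : GL (Fin 2) ℝ) {z : ℂ} (hz : 0 < z.im) :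
    HasDerivAt (moeb g) ((g.det.val : ℂ) / denom g z ^ 2) z := by
  have hd := denom_ne_zero' g hz
  have hnum : HasDerivAt (num g) (g 0 0 : ℂ) z := by
    unfold num
    simpa using ((hasDerivAt_id z).const_mul (g 0 0 : ℂ)).add_const (g 0 1 : ℂ)
  have hden : HasDerivAt (denom g) (g 1 0 : ℂ) z := by
    unfold denom
    simpa using ((hasDerivAt_id z).const_mul (g 1 0 : ℂ)).add_const (g 1 1 : ℂ)
  have := hnum.div hden hd
  refine this.congr_deriv ?_
  congr 1
  rw [Matrix.GeneralLinearGroup.val_det_apply, Matrix.det_fin_two]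
  simp only [num, denom]
  push_cast
  ring

/-- The key algebraic identity. -/
theorem moeb_key (g : GL (Fin 2) ℝ) {z : ℂ} (hz : 0 < z.im) (x y : ℂ) :
    ((g 0 0 : ℂ) * x + (g 0 1 : ℂ) * y) - ((g 1 0 : ℂ) * x + (g 1 1 : ℂ) * y) * moeb g z =
      (g.det.val : ℂ) * (x - y * z) / denom g z := by
  have hd := denom_ne_zero' g hz
  rw [moeb, Matrix.GeneralLinearGroup.val_det_apply, Matrix.det_fin_two]
  field_simp
  simp only [num, denom]
  push_cast
  ring

/-- **Transformation law** of the Eichler integral: `z ↦ H_f(g z; g v)` is a primitive of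
`-(f ∣[w+2] g)(z) (x - y z)^w`. -/
theorem eich_moeb_hasDerivAt {h : ℝ} (hh : 0 < h) {F : ℍ → ℂ} (hF : IsCuspExp h (F ∘ ofComplex))
    (w : ℕ) {g : GL (Fin 2) ℝ} (hg : 0 < g.det.val) (x y : ℂ) {z : ℂ} (hz : 0 < z.im) :
    HasDerivAt (fun z => eich h w (F ∘ ofComplex) ((g 0 0 : ℂ) * x + (g 0 1 : ℂ) * y)
        ((g 1 0 : ℂ) * x + (g 1 1 : ℂ) * y) (moeb g z))
      (-(((F ∣[((w : ℤ) + 2)] g) ∘ ofComplex) z * (x - y * z) ^ w)) z := by
  have hd := denom_ne_zero' g hz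
  have h1 := eich_hasDerivAt hh hF w ((g 0 0 : ℂ) * x + (g 0 1 : ℂ) * y)
    ((g 1 0 : ℂ) * x + (g 1 1 : ℂ) * y) (moeb_im_pos hg hz)
  have h2 := h1.comp z (moeb_hasDerivAt g hz)
  refine h2.congr_deriv ?_
  rw [moeb_key g hz, Function.comp_apply, Function.comp_apply, ofComplex_apply_of_im_pos hz,
    ofComplex_apply_of_im_pos (moeb_im_pos hg hz), ModularForm.slash_apply, UpperHalfPlane.σ,
    if_pos hg, abs_of_pos hg]
  have e : (⟨moeb g z, moeb_im_pos hg hz⟩ : ℍ) = g • (⟨z, hz⟩ : ℍ) := by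
    apply UpperHalfPlane.ext
    exact moeb_coe hg ⟨z, hz⟩
  rw [e]
  simp only [ContinuousAlgEquiv.refl_apply]
  have e1 : ((w : ℤ) + 2 - 1) = ((w + 1 : ℕ) : ℤ) := by push_cast; ring
  have e2 : (-((w : ℤ) + 2)) = -((w + 2 : ℕ) : ℤ) := by push_cast; ring
  rw [e1, e2, zpow_natCast, zpow_neg, zpow_natCast, div_pow, mul_pow]
  field_simp
  ring

end Fermat.Agent.S22Lib
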