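import Mathlib
import Fermat.Agent.S22.Coset

/-!
# S22, part P4: transformation, cocycle and Hecke relations for Eichler integrals
-/

set_option autoImplicit false

open UpperHalfPlane Complex Filter Topology Matrix.SpecialLinearGroup
open scoped MatrixGroups ModularForm

namespace Fermat.Agent.S22Lib

/-- `H` is a holomorphic primitive of `g` on the upper half plane. -/
def IsPrim (H g : ℍ → ℂ) : Prop :=
  ∀ τ : ℍ, HasDerivAt (fun z : ℂ => H (ofComplex z)) (g τ) (τ : ℂ)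

/-- `H` tends to zero along every vertical line. -/
def VertZero (H : ℍ → ℂ) : Prop :=
  ∀ x : ℝ, Tendsto (fun t : ℝ => H (ofComplex ((x : ℂ) + (t : ℂ) * Complex.I))) atTop (𝓝 0)

theorem IsPrim.sub {H₁ H₂ g₁ g₂ : ℍ → ℂ} (h₁ : IsPrim H₁ g₁) (h₂ : IsPrim H₂ g₂) :
    IsPrim (H₁ - H₂) (g₁ - g₂) := fun τ => (h₁ τ).sub (h₂ τ)

theorem IsPrim.add {H₁ H₂ g₁ g₂ : ℍ → ℂ} (h₁ : IsPrim H₁ g₁) (h₂ : IsPrim H₂ g₂) :
    IsPrim (H₁ + H₂) (g₁ + g₂) := fun τ => (h₁ τ).add (h₂ τ)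

theorem IsPrim.const_mul {H g : ℍ → ℂ} (c : ℂ) (h : IsPrim H g) :
    IsPrim (fun τ => c * H τ) (fun τ => c * g τ) := fun τ => (h τ).const_mul c

theorem IsPrim.sum {ι : Type} (s : Finset ι) {H g : ι → ℍ → ℂ} (h : ∀ i ∈ s, IsPrim (H i) (g i)) :
    IsPrim (fun τ => ∑ i ∈ s, H i τ) (fun τ => ∑ i ∈ s, g i τ) := fun τ => by
  have := HasDerivAt.fun_sum (u := s) (A := fun i (z : ℂ) => H i (ofComplex z))
    (A' := fun i => g i τ) (x := (τ : ℂ)) (fun i hi => h i hi τ)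
  exact this

theorem IsPrim.eq_of_zero {H : ℍ → ℂ} (h : IsPrim H 0) (τ τ' : ℍ) : H τ = H τ' := by
  have hopen : IsOpen {z : ℂ | 0 < z.im} := isOpen_upperHalfPlaneSet
  have hconv : Convex ℝ {z : ℂ | 0 < z.im} := convex_halfSpace_im_gt 0
  have hd : DifferentiableOn ℂ (fun z : ℂ => H (ofComplex z)) {z : ℂ | 0 < z.im} := fun z hz =>
    (h ⟨z, hz⟩).differentiableAt.differentiableWithinAt
  have hd' : Set.EqOn (deriv (fun z : ℂ => H (ofComplex z))) 0 {z : ℂ | 0 < z.im} := fun z hz =>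
    (h ⟨z, hz⟩).deriv
  have := hopen.is_const_of_deriv_eq_zero hconv.isPreconnected hd hd' τ.im_pos τ'.im_pos
  simpa using this

theorem VertZero.sub {H₁ H₂ : ℍ → ℂ} (h₁ : VertZero H₁) (h₂ : VertZero H₂) :
    VertZero (H₁ - H₂) := fun x => by simpa using (h₁ x).sub (h₂ x)

theorem VertZero.sum {ι : Type} (s : Finset ι) {H : ι → ℍ → ℂ} (h : ∀ i ∈ s, VertZero (H i)) :
    VertZero (fun τ => ∑ i ∈ s, H i τ) := fun x => by
  simpa using tendsto_finsetSum s (fun i hi => h i hi x)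

theorem eq_zero_of_const_of_vertZero {H : ℍ → ℂ} (hc : ∀ τ τ' : ℍ, H τ = H τ') (hv : VertZero H) :
    H = 0 := by
  funext τ
  have h1 : Tendsto (fun t : ℝ => H (ofComplex ((0 : ℝ) + (t : ℂ) * Complex.I))) atTop (𝓝 (H τ)) := by
    have : (fun t : ℝ => H (ofComplex ((0 : ℝ) + (t : ℂ) * Complex.I))) = fun _ => H τ := by
      funext t; exact hc _ _
    rw [this]; exact tendsto_const_nhds
  exact tendsto_nhds_unique h1 (hv 0)

theorem IsPrim.unique {H₁ H₂ g : ℍ → ℂ} (h₁ : IsPrim H₁ g) (h₂ : IsPrim H₂ g)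
    (v₁ : VertZero H₁) (v₂ : VertZero H₂) : H₁ = H₂ := by
  have h : IsPrim (H₁ - H₂) 0 := by simpa using h₁.sub h₂
  have := eq_zero_of_const_of_vertZero h.eq_of_zero (v₁.sub v₂)
  exact sub_eq_zero.mp this

/-- The linear action of a real matrix on `ℂ²`. -/
def actV (g : GL (Fin 2) ℝ) (v : ℂ × ℂ) : ℂ × ℂ :=
  ((g 0 0 : ℂ) * v.1 + (g 0 1 : ℂ) * v.2, (g 1 0 : ℂ) * v.1 + (g 1 1 : ℂ) * v.2)

theorem actV_mul (g h : GL (Fin 2) ℝ) (v : ℂ × ℂ) : actV (g * h) v = actV g (actV h v) := by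
  ext <;> simp [actV, Matrix.mul_apply, Fin.sum_univ_two] <;> ring

/-- The integrand `- f(τ) (x - y τ)^w`. -/
def igd (w : ℕ) (f : ℍ → ℂ) (v : ℂ × ℂ) (τ : ℍ) : ℂ := - f τ * (v.1 - v.2 * (τ : ℂ)) ^ w

theorem IsPrim.comp_smul {w : ℕ} {k : ℤ} (hk : k = w + 2) {f : ℍ → ℂ} {g : GL (Fin 2) ℝ}
    (hg : 0 < g.det.val) {v : ℂ × ℂ} {H : ℍ → ℂ} (h : IsPrim H (igd w f (actV g v))) :
    IsPrim (fun τ => H (g • τ)) (igd w (f ∣[k] g) v) := by
  intro τ
  have hg' : 0 < g.val.det := hg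
  have h1 := (hasStrictDerivAt_smul hg' τ).hasDerivAt
  have h2 := h (g • τ)
  have h3 : HasDerivAt (fun z : ℂ => H (ofComplex z)) (igd w f (actV g v) (g • τ))
      ((fun z ↦ ↑(g • ofComplex z) : ℂ → ℂ) τ) := by
    simpa using h2
  have h4 := h3.comp (τ : ℂ) h1
  have h5 : ((fun z : ℂ => H (ofComplex z)) ∘ (fun z ↦ ↑(g • ofComplex z) : ℂ → ℂ)) =
      fun z : ℂ => H (g • ofComplex z) := by
    funext z; simp
  rw [h5] at h4
  suffices heq : igd w (f ∣[k] g) v τ =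
      igd w f (actV g v) (g • τ) * (((g.val.det : ℝ) : ℂ) / denom g τ ^ 2) by
    show HasDerivAt (fun z : ℂ => H (g • ofComplex z)) _ _
    rw [heq]; exact h4
  have hden : denom g τ ≠ 0 := denom_ne_zero g τ
  have hdet : ((g.val.det : ℝ) : ℂ) = (g 0 0 : ℂ) * (g 1 1 : ℂ) - (g 0 1 : ℂ) * (g 1 0 : ℂ) := by
    rw [Matrix.det_fin_two]; push_cast; ring
  have hσ : σ g = .refl ℝ ℂ := by rw [σ, if_pos hg]
  have habs : |g.det.val| = g.val.det := abs_of_pos hg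
  simp only [igd, actV, ModularForm.slash_apply, hσ, ContinuousAlgEquiv.refl_apply, habs]
  rw [coe_smul_of_det_pos hg]
  have hkey : ((g 0 0 : ℂ) * v.1 + (g 0 1 : ℂ) * v.2 -
      ((g 1 0 : ℂ) * v.1 + (g 1 1 : ℂ) * v.2) * (num g τ / denom g τ)) =
      ((g.val.det : ℝ) : ℂ) * (v.1 - v.2 * τ) / denom g τ := by
    field_simp
    rw [hdet]
    simp only [num, denom]
    ring
  rw [hkey, hk]
  have e1 : ((g.val.det : ℝ) : ℂ) ^ ((w : ℤ) + 2 - 1) = ((g.val.det : ℝ) : ℂ) ^ (w + 1) := by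
    rw [show (w : ℤ) + 2 - 1 = ((w + 1 : ℕ) : ℤ) by push_cast; ring, zpow_natCast]
  have e2 : denom g τ ^ (-((w : ℤ) + 2)) = (denom g τ ^ (w + 2))⁻¹ := by
    rw [zpow_neg, show (w : ℤ) + 2 = ((w + 2 : ℕ) : ℤ) by push_cast; ring, zpow_natCast]
  rw [e1, e2, div_pow, mul_pow]
  field_simp
  ring

/-- `E` is the system of Eichler integrals of `f` (weight `w + 2`): for each `v = (x, y)`,
`E v` is the primitive of `- f(τ) (x - y τ)^w` which tends to zero along vertical lines. -/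
def IsEich (w : ℕ) (f : ℍ → ℂ) (E : ℂ × ℂ → ℍ → ℂ) : Prop :=
  ∀ v, IsPrim (E v) (igd w f v) ∧ VertZero (E v)

theorem IsEich.unique {w : ℕ} {f : ℍ → ℂ} {E E' : ℂ × ℂ → ℍ → ℂ} (h : IsEich w f E)
    (h' : IsEich w f E') : E = E' := by
  funext v
  exact (h v).1.unique (h' v).1 (h v).2 (h' v).2

/-- The period of the Eichler system `E` along `γ`. -/
noncomputable def per (E : ℂ × ℂ → ℍ → ℂ) (γ : GL (Fin 2) ℝ) (v : ℂ × ℂ) : ℂ :=
  E v UpperHalfPlane.I - E (actV γ v) (γ • UpperHalfPlane.I)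

theorem IsEich.per_eq {w : ℕ} {k : ℤ} (hk : k = w + 2) {f : ℍ → ℂ} {E : ℂ × ℂ → ℍ → ℂ}
    (h : IsEich w f E) {γ : GL (Fin 2) ℝ} (hγ : 0 < γ.det.val) (hf : f ∣[k] γ = f) (v : ℂ × ℂ)
    (τ : ℍ) : E v τ - E (actV γ v) (γ • τ) = per E γ v := by
  have h1 : IsPrim (fun τ => E (actV γ v) (γ • τ)) (igd w f v) := by
    have := (h (actV γ v)).1.comp_smul hk hγ
    rwa [hf] at this
  have h2 : IsPrim (E v - fun τ => E (actV γ v) (γ • τ)) 0 := by
    simpa using (h v).1.sub h1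
  exact h2.eq_of_zero τ UpperHalfPlane.I

theorem IsEich.per_mul {w : ℕ} {k : ℤ} (hk : k = w + 2) {f : ℍ → ℂ} {E : ℂ × ℂ → ℍ → ℂ}
    (h : IsEich w f E) {γ δ : GL (Fin 2) ℝ} (hγ : 0 < γ.det.val)
    (hfγ : f ∣[k] γ = f) (v : ℂ × ℂ) :
    per E (γ * δ) v = per E δ v + per E γ (actV δ v) := by
  rw [← h.per_eq hk hγ hfγ (actV δ v) (δ • UpperHalfPlane.I)]
  simp only [per, actV_mul, mul_smul]
  ring

theorem vertZero_comp_upper {H : ℍ → ℂ} (hH : VertZero H) {α : GL (Fin 2) ℝ} {a b d : ℕ}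
    (ha : 0 < a) (hd : 0 < d)
    (hα : ((α : GL (Fin 2) ℝ) : Matrix (Fin 2) (Fin 2) ℝ) = !![(a : ℝ), (b : ℝ); 0, (d : ℝ)]) :
    VertZero (fun τ => H (α • τ)) := by
  intro x
  have hdet : 0 < α.det.val := by
    rw [Matrix.GeneralLinearGroup.val_det_apply, hα, Matrix.det_fin_two_of]
    simp only [mul_zero, sub_zero]
    positivity
  have hd' : (d : ℂ) ≠ 0 := by exact_mod_cast hd.ne'
  have hpos : (0 : ℝ) < (a : ℝ) / d := by positivity
  have h1 := (hH (((a : ℝ) * x + b) / d)).comp (tendsto_id.const_mul_atTop hpos)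
  refine h1.congr' ?_
  filter_upwards [eventually_gt_atTop 0] with t ht
  have him : 0 < ((x : ℂ) + (t : ℂ) * Complex.I).im := by simpa using ht
  simp only [Function.comp_apply, id_eq]
  congr 1
  apply UpperHalfPlane.ext
  rw [coe_smul_of_det_pos hdet, ofComplex_apply_of_im_pos him]
  have him2 : 0 < (((((a : ℝ) * x + b) / d : ℝ) : ℂ) + (((a : ℝ) / d * t : ℝ) : ℂ) * Complex.I).im := by
    simp only [add_im, ofReal_im, mul_im, ofReal_re, Complex.I_im, mul_one, Complex.I_re, mul_zero,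
      add_zero, zero_add]
    positivity
  rw [ofComplex_apply_of_im_pos him2]
  simp only [num, denom, hα]
  simp
  field_simp
  ring

theorem det_pos_of_upper {α : GL (Fin 2) ℝ} {a b d : ℕ} (ha : 0 < a) (hd : 0 < d)
    (hα : ((α : GL (Fin 2) ℝ) : Matrix (Fin 2) (Fin 2) ℝ) = !![(a : ℝ), (b : ℝ); 0, (d : ℝ)]) :
    0 < α.det.val := by
  rw [Matrix.GeneralLinearGroup.val_det_apply, hα, Matrix.det_fin_two_of]
  simp only [mul_zero, sub_zero]
  positivity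

theorem IsHeckeFamily.det_pos {N : ℕ} {ι : Type} [Fintype ι] {α : ι → GL (Fin 2) ℝ}
    (hα : IsHeckeFamily N α) (i : ι) : 0 < (α i).det.val := by
  obtain ⟨a, b, d, ha, hd, h⟩ := hα.upper i
  exact det_pos_of_upper ha hd h

/-- The Eichler system of `∑ i, f ∣[k] α i` is `∑ i, E (α i • v) (α i • τ)`. -/
theorem IsEich.hecke {w : ℕ} {k : ℤ} (hk : k = w + 2) {f : ℍ → ℂ} {E : ℂ × ℂ → ℍ → ℂ}
    (h : IsEich w f E) {N : ℕ} {ι : Type} [Fintype ι] {α : ι → GL (Fin 2) ℝ}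
    (hα : IsHeckeFamily N α) :
    IsEich w (∑ i, f ∣[k] α i) (fun v τ => ∑ i, E (actV (α i) v) (α i • τ)) := by
  intro v
  constructor
  · have h1 := IsPrim.sum Finset.univ (H := fun i τ => E (actV (α i) v) (α i • τ))
      (g := fun i => igd w (f ∣[k] α i) v)
      (fun i _ => (h (actV (α i) v)).1.comp_smul hk (hα.det_pos i))
    have h2 : (fun τ => ∑ i, igd w (f ∣[k] α i) v τ) = igd w (∑ i, f ∣[k] α i) v := by
      funext τ
      simp only [igd, Finset.sum_apply, ← Finset.sum_mul, Finset.sum_neg_distrib]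
    rwa [h2] at h1
  · refine VertZero.sum Finset.univ (H := fun i τ => E (actV (α i) v) (α i • τ)) fun i _ => ?_
    obtain ⟨a, b, d, ha, hd, hi⟩ := hα.upper i
    exact vertZero_comp_upper (h (actV (α i) v)).2 ha hd hi

theorem detMapGLPos_aux (g : SL(2, ℤ)) : 0 < (mapGL ℝ g : GL (Fin 2) ℝ).det.val := by
  simp

/-- The Hecke relation for periods. -/
theorem IsEich.per_hecke {w : ℕ} {k : ℤ} (hk : k = w + 2) {f : ℍ → ℂ} {E E' : ℂ × ℂ → ℍ → ℂ}
    (h : IsEich w f E) {N : ℕ} {ι : Type} [Fintype ι] {α : ι → GL (Fin 2) ℝ}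
    (hα : IsHeckeFamily N α) (h' : IsEich w (∑ i, f ∣[k] α i) E')
    (hf : ∀ g : SL(2, ℤ), g ∈ CongruenceSubgroup.Gamma0 N → f ∣[k] (mapGL ℝ g : GL (Fin 2) ℝ) = f)
    {g : SL(2, ℤ)} {s : Equiv.Perm ι} {g' : ι → SL(2, ℤ)}
    (hg' : ∀ i, g' i ∈ CongruenceSubgroup.Gamma0 N)
    (hmul : ∀ i, α i * mapGL ℝ g = mapGL ℝ (g' i) * α (s i)) (v : ℂ × ℂ) :
    per E' (mapGL ℝ g) v = ∑ i, per E (mapGL ℝ (g' i)) (actV (α (s i)) v) := by
  have hE' : E' = fun v τ => ∑ i, E (actV (α i) v) (α i • τ) := h'.unique (h.hecke hk hα)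
  have h1 : ∀ i, per E (mapGL ℝ (g' i)) (actV (α (s i)) v) =
      E (actV (α (s i)) v) (α (s i) • UpperHalfPlane.I) -
        E (actV (α i) (actV (mapGL ℝ g) v)) (α i • (mapGL ℝ g : GL (Fin 2) ℝ) • UpperHalfPlane.I) := by
    intro i
    rw [← h.per_eq hk (detMapGLPos_aux (g' i)) (hf _ (hg' i)) (actV (α (s i)) v)
      (α (s i) • UpperHalfPlane.I), ← actV_mul, ← mul_smul, ← hmul i, actV_mul, mul_smul]
  simp only [h1, Finset.sum_sub_distrib]
  rw [Equiv.sum_comp s (fun i => E (actV (α i) v) (α i • UpperHalfPlane.I)), hE']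
  simp only [per]

end Fermat.Agent.S22Lib
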